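import Fermat.Agent.CramerChungFuchs.Cramer
import Mathlib.Probability.StrongLaw
import Mathlib.Probability.Independence.InfinitePi
import Mathlib.MeasureTheory.Function.ConvergenceInMeasure

/-!
# The theorem of Chung and Fuchs

An interval of length `ε` is visited before time `N` no more often on average than `(-ε, ε)`, and
the weak law puts half of the mass of `S n` in `(-δ n, δ n)`, so the expected number of visits to
`(-ε, ε)` is infinite; as a last visit followed by a fixed delay can happen boundedly often only,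
there is no last visit.
-/

set_option autoImplicit false

noncomputable section

namespace FA.CramerChungFuchs

open MeasureTheory ProbabilityTheory Filter Set
open scoped Topology

variable {Ω : Type*} [MeasurableSpace Ω] {P : Measure Ω} [IsProbabilityMeasure P]
  {X : ℕ → Ω → ℝ}

theorem measurable_sum_seq (s : Finset ℕ) : Measurable fun f : ℕ → ℝ => ∑ i ∈ s, f i :=
  Finset.measurable_sum _ fun i _ => measurable_pi_apply i

omit [IsProbabilityMeasure P] in
/-- The shifted sequence has the same law. -/
theorem measure_shift (hX : ∀ i, Measurable (X i)) (hind : iIndepFun X P)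
    (hid : ∀ i, IdentDistrib (X i) (X 0) P P) (m : ℕ) {B : Set (ℕ → ℝ)} (hB : MeasurableSet B) :
    P ((fun ω i => X (m + i) ω) ⁻¹' B) = P ((fun ω i => X i ω) ⁻¹' B) := by
  have : IsProbabilityMeasure P := hind.isProbabilityMeasure
  have h1 := (iIndepFun_iff_map_fun_eq_infinitePi_map hX).1 hind
  have h2 := (iIndepFun_iff_map_fun_eq_infinitePi_map fun i => hX (m + i)).1
    (hind.precomp (add_right_injective m))
  rw [← Measure.map_apply (measurable_pi_iff.2 fun i => hX _) hB,
    ← Measure.map_apply (measurable_pi_iff.2 hX) hB, h1, h2]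
  congr 2
  funext i
  rw [(hid (m + i)).map_eq, (hid i).map_eq]

omit [MeasurableSpace Ω] in
theorem walk_add_sub (X : ℕ → Ω → ℝ) (m n : ℕ) (ω : Ω) :
    walk X (m + n) ω - walk X m ω = ∑ i ∈ Finset.range n, X (m + i) ω := by
  rw [walk, walk, Finset.sum_range_add, add_sub_cancel_left]

omit [IsProbabilityMeasure P] in
/-- The past and a bounded window of the future are independent. -/
theorem measure_past_inter_future (hX : ∀ i, Measurable (X i)) (hind : iIndepFun X P) {m K : ℕ}
    {A B : Set (ℕ → ℝ)} (hA : MeasurableSet A) (hB : MeasurableSet B) :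
    P ((fun ω i => if i < m then X i ω else 0) ⁻¹' A ∩
        (fun ω i => if i < K then X (m + i) ω else 0) ⁻¹' B) =
      P ((fun ω i => if i < m then X i ω else 0) ⁻¹' A) *
        P ((fun ω i => if i < K then X (m + i) ω else 0) ⁻¹' B) := by
  have hd : Disjoint (Finset.range m) (Finset.Ico m (m + K)) := Finset.disjoint_left.2
    fun i h1 h2 => absurd (Finset.mem_range.1 h1) (not_lt.2 (Finset.mem_Ico.1 h2).1)
  have hf : Measurable fun (f : Finset.range m → ℝ) (i : ℕ) =>
      if hi : i ∈ Finset.range m then f ⟨i, hi⟩ else 0 := measurable_pi_iff.2 fun i => by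
    by_cases hi : i ∈ Finset.range m
    · simp only [dif_pos hi]
      exact measurable_pi_apply _
    · simp only [dif_neg hi]
      exact measurable_const
  have hg : Measurable fun (f : Finset.Ico m (m + K) → ℝ) (i : ℕ) =>
      if hi : m + i ∈ Finset.Ico m (m + K) then f ⟨m + i, hi⟩ else 0 :=
    measurable_pi_iff.2 fun i => by
      by_cases hi : m + i ∈ Finset.Ico m (m + K)
      · simp only [dif_pos hi]
        exact measurable_pi_apply _
      · simp only [dif_neg hi]
        exact measurable_const
  have hi := (hind.indepFun_finset _ _ hd hX).comp hf hg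
  have e1 : (fun ω i => if i < m then X i ω else 0) =
      fun ω (i : ℕ) => if hi : i ∈ Finset.range m then X i ω else 0 := by
    funext ω i
    simp
  have e2 : (fun ω i => if i < K then X (m + i) ω else 0) =
      fun ω (i : ℕ) => if hi : m + i ∈ Finset.Ico m (m + K) then X (m + i) ω else 0 := by
    funext ω i
    simp
  rw [e1, e2]
  exact indepFun_iff_measure_inter_preimage_eq_mul.1 hi A B hA hB

variable (hX : ∀ i, Measurable (X i)) (hind : iIndepFun X P)
  (hid : ∀ i, IdentDistrib (X i) (X 0) P P)

/-- The expected number of visits to `(-ε, ε)` before `N`. -/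
def visits (X : ℕ → Ω → ℝ) (P : Measure Ω) (ε : ℝ) (N : ℕ) : ℝ :=
  ∑ n ∈ Finset.range N, P.real {ω | |walk X n ω| < ε}

include hX hind hid

/-- Visits after a first one are visits to `(-ε, ε)` of a new walk. -/
theorem interval_visits_le (u ε : ℝ) (N : ℕ) :
    ∑ n ∈ Finset.range N, P.real {ω | u ≤ walk X n ω ∧ walk X n ω < u + ε} ≤
      visits X P ε N := by
  set F : ℕ → Set Ω := fun j => {ω | (u ≤ walk X j ω ∧ walk X j ω < u + ε) ∧
    ∀ i < j, ¬ (u ≤ walk X i ω ∧ walk X i ω < u + ε)}
  set G : ℕ → ℕ → Set Ω := fun j r => {ω | |walk X (j + r) ω - walk X j ω| < ε}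
  have hmeasJ : ∀ j, MeasurableSet {ω | u ≤ walk X j ω ∧ walk X j ω < u + ε} := fun j =>
    (measurableSet_le measurable_const (measurable_walk hX j)).inter
      (measurableSet_lt (measurable_walk hX j) measurable_const)
  have hF : ∀ j, MeasurableSet (F j) := fun j => by
    have e : F j = {ω | u ≤ walk X j ω ∧ walk X j ω < u + ε} ∩
        ⋂ i ∈ Finset.range j, {ω | u ≤ walk X i ω ∧ walk X i ω < u + ε}ᶜ := by
      ext ω
      simp [F]
    rw [e]
    exact (hmeasJ j).inter (Finset.measurableSet_biInter _ fun i _ => (hmeasJ i).compl)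
  have hprod : ∀ j r, P.real (F j ∩ G j r) = P.real (F j) * P.real {ω | |walk X r ω| < ε} := by
    intro j r
    set SA := {f : ℕ → ℝ | (u ≤ ∑ i ∈ Finset.range j, f i ∧ ∑ i ∈ Finset.range j, f i < u + ε) ∧
      ∀ k < j, ¬ (u ≤ ∑ i ∈ Finset.range k, f i ∧ ∑ i ∈ Finset.range k, f i < u + ε)}
    set SB := {f : ℕ → ℝ | |∑ i ∈ Finset.range r, f i| < ε}
    have hJ : ∀ k : ℕ, MeasurableSet {f : ℕ → ℝ |
        u ≤ ∑ i ∈ Finset.range k, f i ∧ ∑ i ∈ Finset.range k, f i < u + ε} := fun k =>
      (measurableSet_le measurable_const (measurable_sum_seq _)).inter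
        (measurableSet_lt (measurable_sum_seq _) measurable_const)
    have hSA : MeasurableSet SA := by
      have e : SA = {f : ℕ → ℝ | u ≤ ∑ i ∈ Finset.range j, f i ∧
          ∑ i ∈ Finset.range j, f i < u + ε} ∩ ⋂ k ∈ Finset.range j, {f : ℕ → ℝ |
          u ≤ ∑ i ∈ Finset.range k, f i ∧ ∑ i ∈ Finset.range k, f i < u + ε}ᶜ := by
        ext f
        simp [SA]
      rw [e]
      exact (hJ j).inter (Finset.measurableSet_biInter _ fun k _ => (hJ k).compl)
    have hSB : MeasurableSet SB := measurableSet_lt (measurable_sum_seq _).abs measurable_const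
    have hw : ∀ k ≤ j, ∀ ω, ∑ i ∈ Finset.range k, (if i < j then X i ω else 0) = walk X k ω :=
      fun k hk ω => Finset.sum_congr rfl fun i hi => if_pos ((Finset.mem_range.1 hi).trans_le hk)
    have eA : F j = (fun ω i => if i < j then X i ω else 0) ⁻¹' SA := by
      ext ω
      show (_ ∧ _) ∧ _ ↔ (_ ∧ _) ∧ _
      rw [hw j le_rfl ω]
      exact and_congr_right fun _ => forall₂_congr fun k hk => by rw [hw k hk.le ω]
    have eB : G j r = (fun ω i => if i < r then X (j + i) ω else 0) ⁻¹' SB := by
      ext ω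
      simp only [G, SB, mem_preimage, mem_ofPred_eq, walk_add_sub]
      rw [Finset.sum_congr rfl fun i hi => if_pos (Finset.mem_range.1 hi)]
    have eB' : {ω | |walk X r ω| < ε} = (fun ω i => X i ω) ⁻¹' SB := rfl
    have eB'' : G j r = (fun ω i => X (j + i) ω) ⁻¹' SB := by
      ext ω
      simp only [G, SB, mem_preimage, mem_ofPred_eq, walk_add_sub]
    rw [measureReal_def, measureReal_def, measureReal_def, eA, eB,
      measure_past_inter_future hX hind hSA hSB, ENNReal.toReal_mul, ← eA, ← eB, eB'',
      measure_shift hX hind hid j hSB, eB']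
  have hdisj : Set.Pairwise (↑(Finset.range N) : Set ℕ) (Function.onFun Disjoint F) :=
    fun i _ j _ hij => Set.disjoint_left.2 fun ω hi hj => by
      rcases lt_or_gt_of_ne hij with hlt | hlt
      · exact hj.2 i hlt hi.1
      · exact hi.2 j hlt hj.1
  have hcover : ∀ n < N, P.real {ω | u ≤ walk X n ω ∧ walk X n ω < u + ε} ≤
      ∑ j ∈ Finset.range (n + 1), P.real (F j ∩ G j (n - j)) := by
    intro n _
    refine (measureReal_mono ?_ (measure_ne_top _ _)).trans (measureReal_biUnion_finset_le _ _)
    intro ω hω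
    classical
    have hex : ∃ i, u ≤ walk X i ω ∧ walk X i ω < u + ε := ⟨n, hω⟩
    have hle : Nat.find hex ≤ n := Nat.find_min' hex hω
    refine mem_iUnion₂.2 ⟨Nat.find hex, Finset.mem_range.2 (Nat.lt_succ_of_le hle),
      ⟨Nat.find_spec hex, fun i hi => Nat.find_min hex hi⟩, ?_⟩
    obtain ⟨h1, h2⟩ := Nat.find_spec hex
    show |walk X (Nat.find hex + (n - Nat.find hex)) ω - walk X (Nat.find hex) ω| < ε
    rw [Nat.add_sub_cancel' hle, abs_lt]
    obtain ⟨h3, h4⟩ := hω
    constructor <;> linarith
  calc ∑ n ∈ Finset.range N, P.real {ω | u ≤ walk X n ω ∧ walk X n ω < u + ε}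
      ≤ ∑ n ∈ Finset.range N, ∑ j ∈ Finset.range (n + 1),
          P.real (F j) * P.real {ω | |walk X (n - j) ω| < ε} := Finset.sum_le_sum fun n hn =>
        (hcover n (Finset.mem_range.1 hn)).trans_eq (Finset.sum_congr rfl fun j _ => hprod j _)
    _ = ∑ j ∈ Finset.range N, ∑ n ∈ Finset.Ico j N,
          P.real (F j) * P.real {ω | |walk X (n - j) ω| < ε} := Finset.sum_comm' fun n j => by
        simp only [Finset.mem_range, Finset.mem_Ico]
        omega
    _ ≤ ∑ j ∈ Finset.range N, P.real (F j) * visits X P ε N := by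
        refine Finset.sum_le_sum fun j _ => ?_
        rw [← Finset.mul_sum, Finset.sum_Ico_eq_sum_range]
        refine mul_le_mul_of_nonneg_left ?_ measureReal_nonneg
        simp only [Nat.add_sub_cancel_left]
        exact Finset.sum_le_sum_of_subset_of_nonneg (Finset.range_mono (Nat.sub_le N j))
          fun _ _ _ => measureReal_nonneg
    _ ≤ _ := by
        rw [← Finset.sum_mul, ← measureReal_biUnion_finset hdisj (fun j _ => hF j)
          fun _ _ => measure_ne_top _ _]
        exact mul_le_of_le_one_left (Finset.sum_nonneg fun _ _ => measureReal_nonneg)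
          measureReal_le_one

/-- A long interval is visited at most so many times as often. -/
theorem visits_scale_le {ε : ℝ} (hε : 0 < ε) (M N : ℕ) :
    visits X P (M * ε) N ≤ 2 * M * visits X P ε N := by
  have h : ∀ n, P.real {ω | |walk X n ω| < M * ε} ≤ ∑ k ∈ Finset.range (2 * M),
      P.real {ω | ((k : ℝ) - M) * ε ≤ walk X n ω ∧ walk X n ω < ((k : ℝ) - M) * ε + ε} := by
    intro n
    refine (measureReal_mono ?_ (measure_ne_top _ _)).trans (measureReal_biUnion_finset_le _ _)
    intro ω (hω : |walk X n ω| < M * ε)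
    obtain ⟨h1, h2⟩ := abs_lt.1 hω
    set v := walk X n ω / ε + M
    have hv : 0 ≤ v := by
      have : -(M : ℝ) ≤ walk X n ω / ε := (le_div_iff₀ hε).2 (by linarith)
      linarith
    have hf := Nat.floor_le hv
    have hf' := Nat.lt_floor_add_one v
    refine mem_iUnion₂.2 ⟨⌊v⌋₊, Finset.mem_range.2 ((Nat.floor_lt hv).2 ?_), ?_, ?_⟩
    · push_cast
      have : walk X n ω / ε < M := (div_lt_iff₀ hε).2 h2
      linarith
    · have := (le_div_iff₀ hε).1 (show ((⌊v⌋₊ : ℕ) : ℝ) - M ≤ walk X n ω / ε by linarith)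
      linarith
    · have := (div_lt_iff₀ hε).1 (show walk X n ω / ε < ((⌊v⌋₊ : ℕ) : ℝ) - M + 1 by linarith)
      linarith
  calc visits X P (M * ε) N ≤ ∑ n ∈ Finset.range N, ∑ k ∈ Finset.range (2 * M),
        P.real {ω | ((k : ℝ) - M) * ε ≤ walk X n ω ∧ walk X n ω < ((k : ℝ) - M) * ε + ε} :=
        Finset.sum_le_sum fun n _ => h n
    _ = ∑ k ∈ Finset.range (2 * M), ∑ n ∈ Finset.range N, P.real {ω |
        ((k : ℝ) - M) * ε ≤ walk X n ω ∧ walk X n ω < ((k : ℝ) - M) * ε + ε} := Finset.sum_comm
    _ ≤ ∑ _k ∈ Finset.range (2 * M), visits X P ε N :=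
        Finset.sum_le_sum fun k _ => interval_visits_le hX hind hid _ ε N
    _ = _ := by simp

/-- **The expected number of visits is infinite.** -/
theorem tendsto_visits (hint : Integrable (X 0) P) (hmean : ∫ ω, X 0 ω ∂P = 0) {ε : ℝ}
    (hε : 0 < ε) (K : ℝ) : ∃ N, K < visits X P ε N := by
  have hlaw := strong_law_ae X hint (fun i j hij => hind.indepFun hij) hid
  rw [hmean] at hlaw
  have hprob := tendstoInMeasure_iff_norm.1 (tendstoInMeasure_of_tendsto_ae
    (fun n => ((measurable_walk hX n).const_mul ((n : ℝ)⁻¹)).aestronglyMeasurable) hlaw)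
  obtain ⟨δ, hδ, hδK⟩ : ∃ δ > 0, 16 * δ * (|K| + 1) ≤ ε := ⟨ε / (16 * (|K| + 1)), by positivity,
    le_of_eq (by field_simp)⟩
  obtain ⟨n₀, hn₀⟩ := eventually_atTop.1 (((hprob δ hδ).eventually_le_const
    (show (0 : ENNReal) < ENNReal.ofReal (1 / 2) by simp)).and (eventually_gt_atTop 0))
  obtain ⟨N, hN1, hN2⟩ := ((eventually_ge_atTop (2 * n₀)).and
    (tendsto_natCast_atTop_atTop.eventually_gt_atTop (ε / δ))).exists
  refine ⟨N, ?_⟩
  rw [div_lt_iff₀ hδ] at hN2
  set M := ⌈δ * N / ε⌉₊
  have hM : δ * N ≤ M * ε := (div_le_iff₀ hε).1 (Nat.le_ceil _)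
  have hM' : (M : ℝ) * ε ≤ 2 * (δ * N) := by
    have := mul_le_mul_of_nonneg_right (Nat.ceil_lt_add_one (R := ℝ) (a := δ * N / ε)
      (by positivity)).le hε.le
    rw [add_mul, div_mul_cancel₀ _ hε.ne', one_mul] at this
    linarith
  have hlow : (N : ℝ) / 4 ≤ visits X P (M * ε) N := by
    calc (N : ℝ) / 4 ≤ ((N - n₀ : ℕ) : ℝ) * (1 / 2) := by
          rw [Nat.cast_sub (by omega)]
          have : (2 * n₀ : ℝ) ≤ N := by exact_mod_cast hN1
          linarith
      _ = ∑ _n ∈ Finset.Ico n₀ N, (1 / 2 : ℝ) := by simp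
      _ ≤ ∑ n ∈ Finset.Ico n₀ N, P.real {ω | |walk X n ω| < M * ε} := by
          refine Finset.sum_le_sum fun n hn => ?_
          obtain ⟨hn1, hn2⟩ := Finset.mem_Ico.1 hn
          obtain ⟨hbad, hnpos⟩ := hn₀ n hn1
          have hn' : (0 : ℝ) < n := Nat.cast_pos.2 hnpos
          have hm : MeasurableSet {ω | |walk X n ω| < M * ε} :=
            measurableSet_lt (measurable_walk hX n).abs measurable_const
          have hc := probReal_compl_eq_one_sub (μ := P) hm
          have hsub : P.real {ω | |walk X n ω| < M * ε}ᶜ ≤ 1 / 2 := by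
            rw [measureReal_def]
            refine ENNReal.toReal_le_of_le_ofReal (by norm_num) (le_trans ?_ hbad)
            refine measure_mono fun ω hω => ?_
            have hω' : (M : ℝ) * ε ≤ |walk X n ω| := not_lt.1 hω
            show δ ≤ ‖(n : ℝ)⁻¹ * walk X n ω - 0‖
            rw [sub_zero, Real.norm_eq_abs, abs_mul, abs_inv, Nat.abs_cast, inv_mul_eq_div,
              le_div_iff₀ hn']
            have : δ * n ≤ δ * N := mul_le_mul_of_nonneg_left (Nat.cast_le.2 hn2.le) hδ.le
            linarith
          linarith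
      _ ≤ _ := Finset.sum_le_sum_of_subset_of_nonneg
          (fun n hn => Finset.mem_range.2 (Finset.mem_Ico.1 hn).2) fun _ _ _ => measureReal_nonneg
  have hv := hlow.trans (visits_scale_le hX hind hid hε M N)
  have hv0 : 0 ≤ visits X P ε N := Finset.sum_nonneg fun _ _ => measureReal_nonneg
  by_contra hcon
  have h1 : visits X P ε N ≤ |K| := (not_lt.1 hcon).trans (le_abs_self K)
  have h2 := mul_le_mul_of_nonneg_left hv hε.le
  have h3 := mul_le_mul_of_nonneg_left h1 (show 0 ≤ 4 * (δ * N) by positivity)
  have h4 := mul_le_mul_of_nonneg_right hM' (mul_nonneg zero_le_two hv0)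
  have h5 := mul_le_mul_of_nonneg_right hδK (Nat.cast_nonneg N)
  have hδN : 0 < δ * N := by linarith
  linarith

/-- **The theorem of Chung and Fuchs.** -/
theorem frequently_small (hint : Integrable (X 0) P) (hmean : ∫ ω, X 0 ω ∂P = 0) {ε : ℝ}
    (hε : 0 < ε) : ∀ᵐ ω ∂P, ∃ᶠ n in atTop, |walk X n ω| < ε := by
  have hzero : ∀ k : ℕ, P.real {ω | ∀ n, k ≤ n → ε ≤ |walk X n ω|} = 0 := by
    intro k
    set q := P.real {ω | ∀ n, k ≤ n → ε ≤ |walk X n ω|}
    have hq : 0 ≤ q := measureReal_nonneg
    by_contra hne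
    obtain ⟨N, hN⟩ := tendsto_visits hX hind hid hint hmean (half_pos hε) ((k + 1) / q)
    have hqpos : 0 < q := hq.lt_of_ne' hne
    rw [div_lt_iff₀ hqpos] at hN
    set E : ℕ → Set Ω := fun m => {ω | |walk X m ω| < ε / 2 ∧
      ∀ n, k ≤ n → n < N → ε ≤ |walk X (m + n) ω - walk X m ω|}
    have hE : ∀ m, MeasurableSet (E m) := fun m => by
      have e : E m = {ω | |walk X m ω| < ε / 2} ∩ ⋂ n ∈ Finset.Ico k N,
          {ω | ε ≤ |walk X (m + n) ω - walk X m ω|} := by
        ext ω
        simp [E]
      rw [e]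
      exact (measurableSet_lt (measurable_walk hX m).abs measurable_const).inter
        (Finset.measurableSet_biInter _ fun n _ => measurableSet_le measurable_const
          ((measurable_walk hX _).sub (measurable_walk hX m)).abs)
    have hlow : ∀ m, P.real {ω | |walk X m ω| < ε / 2} * q ≤ P.real (E m) := by
      intro m
      set SA := {f : ℕ → ℝ | |∑ i ∈ Finset.range m, f i| < ε / 2}
      set SB := ⋂ n ∈ Finset.Ico k N, {f : ℕ → ℝ | ε ≤ |∑ i ∈ Finset.range n, f i|}
      have hSA : MeasurableSet SA := measurableSet_lt (measurable_sum_seq _).abs measurable_const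
      have hSB : MeasurableSet SB := Finset.measurableSet_biInter _ fun n _ =>
        measurableSet_le measurable_const (measurable_sum_seq _).abs
      have eA : {ω | |walk X m ω| < ε / 2} = (fun ω i => if i < m then X i ω else 0) ⁻¹' SA := by
        ext ω
        simp only [SA, mem_preimage, mem_ofPred_eq]
        rw [Finset.sum_congr rfl fun i hi => if_pos (Finset.mem_range.1 hi)]
        rfl
      have eB : E m = (fun ω i => if i < m then X i ω else 0) ⁻¹' SA ∩
          (fun ω i => if i < N then X (m + i) ω else 0) ⁻¹' SB := by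
        rw [← eA]
        ext ω
        simp only [E, SB, mem_inter_iff, mem_preimage, mem_iInter, mem_ofPred_eq, Finset.mem_Ico,
          and_imp, walk_add_sub]
        refine and_congr_right fun _ => forall₃_congr fun n _ hn => ?_
        rw [Finset.sum_congr rfl fun i hi => if_pos ((Finset.mem_range.1 hi).trans hn)]
      have hqle : q ≤ P.real ((fun ω i => if i < N then X (m + i) ω else 0) ⁻¹' SB) := by
        have e : (fun ω i => if i < N then X (m + i) ω else 0) ⁻¹' SB =
            (fun ω i => X (m + i) ω) ⁻¹' SB := by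
          ext ω
          simp only [SB, mem_preimage, mem_iInter, mem_ofPred_eq, Finset.mem_Ico, and_imp]
          refine forall₃_congr fun n _ hn => ?_
          rw [Finset.sum_congr rfl fun i hi => if_pos ((Finset.mem_range.1 hi).trans hn)]
        rw [e, measureReal_def (μ := P) (s := _ ⁻¹' SB), measure_shift hX hind hid m hSB,
          ← measureReal_def]
        refine measureReal_mono fun ω hω => ?_
        exact mem_iInter₂.2 fun n hn => hω n (Finset.mem_Ico.1 hn).1
      have hmul : P.real (E m) = P.real {ω | |walk X m ω| < ε / 2} *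
          P.real ((fun ω i => if i < N then X (m + i) ω else 0) ⁻¹' SB) := by
        rw [measureReal_def, measureReal_def, measureReal_def, eB,
          measure_past_inter_future hX hind hSA hSB, ENNReal.toReal_mul, ← eA]
      rw [hmul]
      exact mul_le_mul_of_nonneg_left hqle measureReal_nonneg
    -- each point is in at most `k + 1` of the events
    have hind' : ∀ ω, ∑ m ∈ Finset.range N, (E m).indicator (1 : Ω → ℝ) ω ≤ k + 1 := by
      intro ω
      classical
      set s := (Finset.range N).filter fun m => ω ∈ E m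
      have hs : ∑ m ∈ Finset.range N, (E m).indicator (1 : Ω → ℝ) ω = s.card := by
        simp only [s, Finset.card_filter, Nat.cast_sum]
        refine Finset.sum_congr rfl fun m _ => ?_
        by_cases hm : ω ∈ E m <;> simp [hm]
      rw [hs]
      rcases s.eq_empty_or_nonempty with he | he
      · rw [he, Finset.card_empty, Nat.cast_zero]
        positivity
      set m₀ := s.min' he
      have hsub : s ⊆ Finset.Ico m₀ (m₀ + (k + 1)) := fun m hm => by
        have hm₀ : m₀ ≤ m := s.min'_le m hm
        refine Finset.mem_Ico.2 ⟨hm₀, ?_⟩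
        by_contra hfar
        obtain ⟨hmN, hmE⟩ := Finset.mem_filter.1 hm
        obtain ⟨-, hm₀E⟩ := Finset.mem_filter.1 (s.min'_mem he)
        have h1 := hm₀E.2 (m - m₀) (by omega) (by have := Finset.mem_range.1 hmN; omega)
        rw [Nat.add_sub_cancel' hm₀] at h1
        linarith [abs_sub (walk X m ω) (walk X m₀ ω), hmE.1, hm₀E.1]
      exact_mod_cast (Finset.card_le_card hsub).trans_eq (by simp)
    have hup : ∑ m ∈ Finset.range N, P.real (E m) ≤ k + 1 := by
      have hi : ∀ m ∈ Finset.range N, Integrable ((E m).indicator (1 : Ω → ℝ)) P := fun m _ =>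
        (integrable_const (1 : ℝ)).indicator (hE m)
      have h := integral_mono (integrable_finsetSum _ hi) (integrable_const ((k : ℝ) + 1)) hind'
      rw [integral_finsetSum _ hi, integral_const, probReal_univ, one_smul,
        Finset.sum_congr rfl fun m _ => integral_indicator_one (μ := P) (hE m)] at h
      exact h
    have hsum := Finset.sum_le_sum (s := Finset.range N) fun m _ => hlow m
    rw [← Finset.sum_mul] at hsum
    have : visits X P (ε / 2) N * q ≤ k + 1 := hsum.trans hup
    linarith
  have hnull : P (⋃ k : ℕ, {ω | ∀ n, k ≤ n → ε ≤ |walk X n ω|}) = 0 :=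
    measure_iUnion_null fun k => (measureReal_eq_zero_iff (measure_ne_top _ _)).1 (hzero k)
  filter_upwards [measure_eq_zero_iff_ae_notMem.1 hnull] with ω hω
  refine frequently_atTop.2 fun k => ?_
  by_contra hcon
  simp only [not_exists, not_and, not_lt] at hcon
  exact hω (mem_iUnion.2 ⟨k, hcon⟩)

omit [IsProbabilityMeasure P] hX in
/-- A walk with drift escapes. -/
theorem tendsto_abs_walk (hint : Integrable (X 0) P) (hmean : ∫ ω, X 0 ω ∂P ≠ 0) :
    ∀ᵐ ω ∂P, Tendsto (fun n => |walk X n ω|) atTop atTop := by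
  filter_upwards [strong_law_ae X hint (fun i j hij => hind.indepFun hij) hid] with ω hω
  refine tendsto_atTop_mono' atTop ?_
    (tendsto_natCast_atTop_atTop.atTop_mul_const (half_pos (abs_pos.2 hmean)))
  filter_upwards [hω.abs.eventually_const_le (half_lt_self (abs_pos.2 hmean)),
    eventually_gt_atTop 0] with n hn hn0
  rw [smul_eq_mul, abs_mul, abs_inv, Nat.abs_cast, inv_mul_eq_div,
    le_div_iff₀ (Nat.cast_pos.2 hn0)] at hn
  rw [mul_comm]
  exact hn

end FA.CramerChungFuchs
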