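import Mathlib.Probability.Moments.Tilted
import Mathlib.Probability.IdentDistrib
import Mathlib.Probability.Moments.Variance
import Mathlib.Analysis.Calculus.Deriv.MeanValue

/-!
# The theorem of Cramér

Under the law tilted by `exp (t S n)` the sum has mean `n Λ' t` and variance `n Λ'' t`, so it is
near `n (a + δ)` with probability at least `1 / 2` when `Λ' t = a + δ`, and such `t` exist in a
bounded interval.
-/

set_option autoImplicit false

noncomputable section

namespace FA.CramerChungFuchs

open MeasureTheory ProbabilityTheory Filter Set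
open scoped Topology

variable {Ω : Type*} [MeasurableSpace Ω] {P : Measure Ω} [IsProbabilityMeasure P]
  {X : ℕ → Ω → ℝ}

/-- The rate function. -/
def rate (X : ℕ → Ω → ℝ) (P : Measure Ω) (a : ℝ) : ℝ := ⨆ t : ℝ, t * a - cgf (X 0) P t

/-- The sum of the first `n` terms. -/
def walk (X : ℕ → Ω → ℝ) (n : ℕ) (ω : Ω) : ℝ := ∑ i ∈ Finset.range n, X i ω

omit [IsProbabilityMeasure P] in
theorem measurable_walk (hX : ∀ i, Measurable (X i)) (n : ℕ) : Measurable (walk X n) :=
  Finset.measurable_sum _ fun i _ => hX i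

variable (hX : ∀ i, Measurable (X i)) (hind : iIndepFun X P)
  (hid : ∀ i, IdentDistrib (X i) (X 0) P P)
  (hexp : ∀ t : ℝ, Integrable (fun ω => Real.exp (t * X 0 ω)) P)

include hX hind hid hexp

theorem integrable_exp_walk (n : ℕ) (t : ℝ) :
    Integrable (fun ω => Real.exp (t * walk X n ω)) P := by
  have h := hind.integrable_exp_mul_sum hX (s := Finset.range n) fun i _ =>
    ((hid i).comp (Real.continuous_exp.measurable.comp (measurable_const_mul t))).integrable_iff.2
      (hexp t)
  simpa [walk, Finset.sum_apply] using h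

omit [IsProbabilityMeasure P] in
theorem cgf_walk (n : ℕ) : cgf (walk X n) P = fun t => (n : ℝ) * cgf (X 0) P t := by
  funext t
  have e : walk X n = ∑ i ∈ Finset.range n, X i := funext fun ω => by simp [walk]
  rw [e, hind.cgf_sum hX fun i _ =>
    ((hid i).comp (Real.continuous_exp.measurable.comp (measurable_const_mul t))).integrable_iff.2
      (hexp t), Finset.sum_congr rfl fun i _ => show cgf (X i) P t = cgf (X 0) P t by
      rw [cgf, cgf, mgf_congr_identDistrib (hid i)]]
  simp

omit [IsProbabilityMeasure P] hX hind hid hexp in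
theorem integrableExpSet_eq {Y : Ω → ℝ} (h : ∀ t : ℝ, Integrable (fun ω => Real.exp (t * Y ω)) P)
    (t : ℝ) : t ∈ interior (integrableExpSet Y P) := by
  rw [show integrableExpSet Y P = univ from eq_univ_of_forall h, interior_univ]
  trivial

omit [IsProbabilityMeasure P] hX hind hid in
theorem continuous_deriv_cgf : Continuous (deriv (cgf (X 0) P)) := by
  have h := analyticOn_cgf (X := X 0) (μ := P)
  rw [show integrableExpSet (X 0) P = univ from eq_univ_of_forall hexp, interior_univ,
    analyticOn_univ] at h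
  exact continuousOn_univ.1 h.deriv.continuousOn

omit [IsProbabilityMeasure P] hX hind hid in
theorem differentiable_cgf : Differentiable ℝ (cgf (X 0) P) := by
  have h := analyticOn_cgf (X := X 0) (μ := P)
  rw [show integrableExpSet (X 0) P = univ from eq_univ_of_forall hexp, interior_univ,
    analyticOn_univ] at h
  exact fun t => (h t trivial).differentiableAt

omit hX hind hid in
/-- Jensen for the exponential. -/
theorem mul_mean_le_cgf (t : ℝ) : t * ∫ ω, X 0 ω ∂P ≤ cgf (X 0) P t := by
  set m := t * ∫ ω, X 0 ω ∂P with hm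
  have hint : Integrable (X 0) P := integrable_of_mem_interior_integrableExpSet
    (integrableExpSet_eq hexp 0)
  have h := integral_mono (f := fun ω => Real.exp m * (t * X 0 ω - m + 1))
    ((((hint.const_mul t).sub (integrable_const m)).add (integrable_const 1)).const_mul _)
    (hexp t) fun ω => by
      have := mul_le_mul_of_nonneg_left (Real.add_one_le_exp (t * X 0 ω - m)) (Real.exp_pos m).le
      rwa [← Real.exp_add, add_sub_cancel] at this
  rw [integral_const_mul, integral_add (f := fun ω => t * X 0 ω - m)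
    ((hint.const_mul t).sub (integrable_const m)) (integrable_const 1),
    integral_sub (hint.const_mul t) (integrable_const m), integral_const_mul, ← hm] at h
  simp only [integral_const, probReal_univ, one_smul, sub_self, zero_add, mul_one] at h
  rw [← Real.log_exp m]
  exact Real.log_le_log (Real.exp_pos m) h

omit hX hind hid in
theorem cgf_lower (b t : ℝ) (ht : 0 ≤ t) (hp : 0 < P.real {ω | b ≤ X 0 ω}) :
    t * b + Real.log (P.real {ω | b ≤ X 0 ω}) ≤ cgf (X 0) P t := by
  have h := measure_ge_le_exp_cgf (μ := P) (X := X 0) b ht (hexp t)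
  have h' := Real.log_le_log hp h
  rw [Real.log_exp] at h'
  linarith

/-- **The upper bound.** -/
theorem walk_le_exp (n : ℕ) {a : ℝ} (ha : ∫ ω, X 0 ω ∂P ≤ a) (t : ℝ) :
    P.real {ω | (n : ℝ) * a ≤ walk X n ω} ≤ Real.exp (-(n * (t * a - cgf (X 0) P t))) := by
  rcases le_or_gt 0 t with ht | ht
  · refine (measure_ge_le_exp_cgf ((n : ℝ) * a) ht (integrable_exp_walk hX hind hid hexp n t)).trans
      (le_of_eq ?_)
    rw [cgf_walk hX hind hid hexp n]
    ring_nf
  · refine measureReal_le_one.trans (Real.one_le_exp ?_)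
    have h := mul_mean_le_cgf hexp t
    have := mul_le_mul_of_nonpos_left ha ht.le
    exact neg_nonneg.2 (mul_nonpos_of_nonneg_of_nonpos (Nat.cast_nonneg n) (by linarith))

omit hX hind hid in
theorem bddAbove_rate {a : ℝ} (ha : ∫ ω, X 0 ω ∂P ≤ a) (hp : 0 < P.real {ω | a ≤ X 0 ω}) :
    BddAbove (range fun t : ℝ => t * a - cgf (X 0) P t) := by
  refine ⟨-Real.log (P.real {ω | a ≤ X 0 ω}), forall_mem_range.2 fun t => ?_⟩
  rcases le_or_gt 0 t with ht | ht
  · linarith [cgf_lower hexp a t ht hp]
  · have := mul_mean_le_cgf hexp t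
    have := mul_le_mul_of_nonpos_left ha ht.le
    linarith [Real.log_nonpos hp.le measureReal_le_one]

/-- **The theorem of Cramér.** -/
theorem tendsto_log_walk {a : ℝ} (ha : ∫ ω, X 0 ω ∂P < a) (hp : 0 < P.real {ω | a < X 0 ω}) :
    (∀ n : ℕ, P.real {ω | (n : ℝ) * a ≤ walk X n ω} ≤ Real.exp (-(n * rate X P a))) ∧
      Tendsto (fun n : ℕ => Real.log (P.real {ω | (n : ℝ) * a ≤ walk X n ω}) / n) atTop
        (𝓝 (-rate X P a)) := by
  have hpa : 0 < P.real {ω | a ≤ X 0 ω} :=
    hp.trans_le (measureReal_mono (ofPred_subset_ofPred.2 fun ω hω => hω.le))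
  have hbdd := bddAbove_rate hexp ha.le hpa
  have hup : ∀ n : ℕ, P.real {ω | (n : ℝ) * a ≤ walk X n ω} ≤ Real.exp (-(n * rate X P a)) := by
    intro n
    rcases Nat.eq_zero_or_pos n with hn | hn
    · subst hn
      simp
    rcases (measureReal_nonneg (μ := P) (s := {ω | (n : ℝ) * a ≤ walk X n ω})).eq_or_lt with h | h
    · exact h ▸ (Real.exp_pos _).le
    have hn' : (0 : ℝ) < n := Nat.cast_pos.2 hn
    refine (Real.log_le_iff_le_exp h).1 ?_
    have : rate X P a ≤ -Real.log (P.real {ω | (n : ℝ) * a ≤ walk X n ω}) / n := by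
      refine ciSup_le fun t => ?_
      have := (Real.log_le_iff_le_exp h).2 (walk_le_exp hX hind hid hexp n ha.le t)
      rw [le_div_iff₀ hn']
      linarith
    rw [le_div_iff₀ hn'] at this
    linarith
  refine ⟨hup, ?_⟩
  -- a level above `a` that is charged
  obtain ⟨b, hab, hb⟩ : ∃ b, a < b ∧ 0 < P.real {ω | b ≤ X 0 ω} := by
    by_contra hcon
    simp only [not_exists, not_and, not_lt] at hcon
    refine hp.ne' ((measureReal_eq_zero_iff (measure_ne_top _ _)).2 (measure_mono_null
      (t := ⋃ i : ℕ, {ω | a + 1 / ((i : ℝ) + 1) ≤ X 0 ω}) (fun ω (hω : a < X 0 ω) => ?_)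
      (measure_iUnion_null fun i => (measureReal_eq_zero_iff (measure_ne_top _ _)).1 (le_antisymm
        (hcon _ (lt_add_of_pos_right _ (by positivity))) measureReal_nonneg))))
    obtain ⟨i, hi⟩ := exists_nat_one_div_lt (sub_pos.2 hω)
    exact mem_iUnion.2 ⟨i, show a + 1 / ((i : ℝ) + 1) ≤ X 0 ω by linarith⟩
  set L := cgf (X 0) P
  have hd0 : deriv L 0 = ∫ ω, X 0 ω ∂P := by
    rw [deriv_cgf_zero (integrableExpSet_eq hexp 0)]
    simp
  -- the derivative passes `a + (b - a) / 2`
  obtain ⟨s, hs0, hs⟩ : ∃ s, 0 < s ∧ a + (b - a) / 2 ≤ deriv L s := by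
    obtain ⟨T, hT, hT0⟩ := ((eventually_ge_atTop
      (2 * -Real.log (P.real {ω | b ≤ X 0 ω}) / (b - a))).and (eventually_gt_atTop 0)).exists
    obtain ⟨s, ⟨hs0, -⟩, hs⟩ := exists_deriv_eq_slope L hT0
      (differentiable_cgf hexp).continuous.continuousOn (differentiable_cgf hexp).differentiableOn
    refine ⟨s, hs0, ?_⟩
    rw [hs, show L 0 = 0 from cgf_zero, sub_zero, sub_zero, le_div_iff₀ hT0]
    rw [div_le_iff₀ (by linarith)] at hT
    have := cgf_lower hexp b T hT0.le hb
    linarith
  rw [Metric.tendsto_nhds]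
  intro η hη
  set δ := min ((b - a) / 4) (η / (4 * s + 4))
  have hδ : 0 < δ := lt_min (by linarith) (by positivity)
  obtain ⟨t, ⟨ht0, hts⟩, ht⟩ : a + δ ∈ deriv L '' Icc 0 s :=
    intermediate_value_Icc hs0.le (continuous_deriv_cgf hexp).continuousOn
      ⟨by rw [hd0]; linarith, by linarith [min_le_left ((b - a) / 4) (η / (4 * s + 4))]⟩
  set V := iteratedDeriv 2 L t
  filter_upwards [eventually_gt_atTop 0,
    tendsto_natCast_atTop_atTop.eventually_ge_atTop (2 * V / δ ^ 2),
    tendsto_natCast_atTop_atTop.eventually_gt_atTop (4 * Real.log 2 / η)] with n hn hnV hnη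
  have hn' : (0 : ℝ) < n := Nat.cast_pos.2 hn
  rw [div_le_iff₀ (by positivity)] at hnV
  rw [div_lt_iff₀ hη] at hnη
  set S := walk X n
  have hSm : Measurable S := measurable_walk hX n
  have hiS := integrable_exp_walk hX hind hid hexp n
  have htS := integrableExpSet_eq hiS t
  set Q := P.tilted (t * S ·)
  have : IsProbabilityMeasure Q := isProbabilityMeasure_tilted (hiS t)
  have hcS : cgf S P = fun u => (n : ℝ) * L u := cgf_walk hX hind hid hexp n
  have hmean : ∫ ω, S ω ∂Q = n * (a + δ) := by
    rw [integral_tilted_mul_self htS, hcS, deriv_const_mul_field, ht]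
  have hvar : variance S Q = n * V := by
    rw [variance_tilted_mul htS, hcS, iteratedDeriv_const_mul_field]
  have hch := meas_ge_le_variance_div_sq (memLp_tilted_mul htS 2)
    (show 0 < (n : ℝ) * δ by positivity)
  rw [hmean, hvar] at hch
  set A := {ω | |S ω - n * (a + δ)| < n * δ}
  have hA : MeasurableSet A :=
    measurableSet_lt (hSm.sub_const _).abs measurable_const
  have hQA : (1 / 2 : ℝ) ≤ Q.real A := by
    have hsmall : Q.real Aᶜ ≤ 1 / 2 := by
      have e : Aᶜ = {ω | (n : ℝ) * δ ≤ |S ω - n * (a + δ)|} := by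
        ext ω
        simp [A]
      rw [e, measureReal_def]
      refine ENNReal.toReal_le_of_le_ofReal (by norm_num) (hch.trans (ENNReal.ofReal_le_ofReal ?_))
      rw [div_le_iff₀ (by positivity)]
      have := mul_le_mul_of_nonneg_left hnV hn'.le
      linarith
    rw [probReal_compl_eq_one_sub hA] at hsmall
    linarith
  have hcost : Q.real A ≤
      Real.exp (n * (t * (a + 2 * δ) - L t)) * P.real {ω | (n : ℝ) * a ≤ S ω} := by
    have e : Q.real A = ∫ ω in A, Real.exp (t * S ω - cgf S P t) ∂P := by
      rw [measureReal_def, tilted_mul_apply_eq_ofReal_integral_cgf' hA (hiS t),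
        ENNReal.toReal_ofReal (setIntegral_nonneg hA fun ω _ => (Real.exp_pos _).le)]
    rw [e]
    refine (setIntegral_mono_on ?_ (integrable_const _).integrableOn hA fun ω hω =>
      show Real.exp (t * S ω - cgf S P t) ≤ Real.exp (n * (t * (a + 2 * δ) - L t)) from ?_).trans ?_
    · simp only [Real.exp_sub]
      exact ((hiS t).div_const _).integrableOn
    · replace hω : |S ω - n * (a + δ)| < n * δ := hω
      rw [hcS]
      refine Real.exp_le_exp.2 ?_
      have := mul_le_mul_of_nonneg_left (abs_lt.1 hω).2.le ht0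
      linarith
    · rw [setIntegral_const, smul_eq_mul, mul_comm]
      refine mul_le_mul_of_nonneg_left (measureReal_mono fun ω hω => ?_) (Real.exp_pos _).le
      have hω' : |S ω - n * (a + δ)| < n * δ := hω
      show (n : ℝ) * a ≤ S ω
      linarith [(abs_lt.1 hω').1]
  set p := P.real {ω | (n : ℝ) * a ≤ S ω}
  have hp0 : 0 < p := by
    by_contra h
    have := hQA.trans
      (hcost.trans (mul_nonpos_of_nonneg_of_nonpos (Real.exp_pos _).le (not_lt.1 h)))
    linarith
  have hlow : -Real.log 2 ≤ n * (t * (a + 2 * δ) - L t) + Real.log p := by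
    have h := Real.log_le_log one_half_pos (hQA.trans hcost)
    rw [Real.log_mul (Real.exp_pos _).ne' hp0.ne', Real.log_exp, one_div, Real.log_inv] at h
    exact h
  have hsup : t * a - L t ≤ rate X P a := le_ciSup hbdd t
  have htδ : 2 * (t * δ) ≤ η / 2 := by
    have h1 : t * δ ≤ s * (η / (4 * s + 4)) := mul_le_mul hts (min_le_right _ _) hδ.le hs0.le
    have h2 : s * (η / (4 * s + 4)) ≤ η / 4 := by
      rw [← mul_div_assoc, div_le_iff₀ (by positivity)]
      linarith
    linarith
  have hu := (Real.log_le_iff_le_exp hp0).2 (hup n)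
  have h3 := mul_le_mul_of_nonneg_left hsup hn'.le
  have h4 := mul_le_mul_of_nonneg_left htδ hn'.le
  rw [Real.dist_eq, sub_neg_eq_add, div_add' _ _ _ hn'.ne', abs_div, Nat.abs_cast,
    div_lt_iff₀ hn', abs_lt]
  constructor <;> linarith [mul_pos hη hn']

end FA.CramerChungFuchs
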